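/-
GATE-F / S40, node GF-INTERP part 1 (helper17): uniqueness of interpolation on GRIDS whose nodes
have UNIT pairwise differences, over an arbitrary commutative ring (no field, no domain, no
determinant) — the unisolvence half of helper38's INTERP lemma (board 5408).

* `UnitDiff x` : all differences `x i - x j` (`i ≠ j`) are units; stable under ring homs;
* `poly_eq_zero_of_unitDiff` : a univariate polynomial of degree `≤ N` vanishing at `N + 1`
  nodes with unit differences is `0`;
* `mvPoly_eq_zero_of_unitDiff` : a polynomial in `d` variables of degree `≤ N` in EACH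
  variable vanishing on the grid `{x ∘ s | s : Fin d → Fin (N + 1)}` is `0`;
* `exists_unitDiff` : a local ring with infinite residue field has such nodes for every `N`.

Mathlib only.
-/
import Mathlib

set_option autoImplicit false

namespace Fermat.Agent.GF.Interp.Grid

open Polynomial

variable {A : Type*} [CommRing A]

/-- A family of nodes all of whose pairwise differences are units. -/
def UnitDiff {κ : Type*} (x : κ → A) : Prop := ∀ i j, i ≠ j → IsUnit (x i - x j)

theorem UnitDiff.map {B : Type*} [CommRing B] (φ : A →+* B) {κ : Type*} {x : κ → A}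
    (hx : UnitDiff x) : UnitDiff (φ ∘ x) := by
  intro i j hij
  have := (hx i j hij).map φ
  simpa [map_sub] using this

theorem UnitDiff.comp_injective {κ κ' : Type*} {x : κ → A} (hx : UnitDiff x) (e : κ' → κ)
    (he : Function.Injective e) : UnitDiff (x ∘ e) :=
  fun i j hij => hx (e i) (e j) fun h => hij (he h)

/-- **Univariate uniqueness**: degree `≤ N`, `N + 1` roots with unit differences. -/
theorem poly_eq_zero_of_unitDiff :
    ∀ {N : ℕ} (x : Fin (N + 1) → A), UnitDiff x → ∀ P : A[X], P.natDegree ≤ N →
      (∀ j, P.eval (x j) = 0) → P = 0 := by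
  intro N
  induction N with
  | zero =>
    intro x _ P hdeg hroot
    have hC : P = C (P.coeff 0) := Polynomial.eq_C_of_natDegree_le_zero hdeg
    have h0 := hroot 0
    rw [hC, Polynomial.eval_C] at h0
    rw [hC, h0, map_zero]
  | succ N ih =>
    intro x hx P hdeg hroot
    rcases subsingleton_or_nontrivial A with hA | hA
    · exact Subsingleton.elim _ _
    by_contra hP
    set a := x 0 with ha
    have hroot0 : P.IsRoot a := hroot 0
    have hfac : (X - C a) * (P /ₘ (X - C a)) = P := Polynomial.mul_divByMonic_eq_iff_isRoot.mpr hroot0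
    set Q := P /ₘ (X - C a) with hQ
    have hQdeg : Q.natDegree ≤ N := by
      rw [hQ, Polynomial.natDegree_divByMonic _ (Polynomial.monic_X_sub_C a),
        Polynomial.natDegree_X_sub_C]
      omega
    have hQroot : ∀ j : Fin (N + 1), Q.eval (x j.succ) = 0 := by
      intro j
      have h := hroot j.succ
      rw [← hfac, Polynomial.eval_mul, Polynomial.eval_sub, Polynomial.eval_X,
        Polynomial.eval_C] at h
      have hu : IsUnit (x j.succ - a) := hx j.succ 0 (Fin.succ_ne_zero j)
      exact (hu.mul_right_eq_zero).mp h
    have hQ0 : Q = 0 :=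
      ih (fun j => x j.succ) (hx.comp_injective Fin.succ (Fin.succ_injective _)) Q hQdeg hQroot
    apply hP
    rw [← hfac, hQ0, mul_zero]

/-- **Grid uniqueness**: a polynomial in `d` variables of degree `≤ N` in each variable which
vanishes on the grid built from `N + 1` nodes with unit differences is zero. -/
theorem mvPoly_eq_zero_of_unitDiff {N : ℕ} (x : Fin (N + 1) → A) (hx : UnitDiff x) :
    ∀ {d : ℕ} (P : MvPolynomial (Fin d) A), (∀ i, P.degreeOf i ≤ N) →
      (∀ s : Fin d → Fin (N + 1), MvPolynomial.eval (fun i => x (s i)) P = 0) → P = 0 := by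
  intro d
  induction d with
  | zero =>
    intro P _ hroot
    have h0 := hroot Fin.elim0
    rw [MvPolynomial.eq_C_of_isEmpty P] at h0 ⊢
    rw [MvPolynomial.eval_C] at h0
    rw [h0, map_zero]
  | succ d ih =>
    intro P hdeg hroot
    set F := MvPolynomial.finSuccEquiv A d P with hF
    have hFdeg : F.natDegree ≤ N := by
      rw [hF, MvPolynomial.natDegree_finSuccEquiv]
      exact hdeg 0
    -- every coefficient of `F` vanishes
    have hcoeff : ∀ k, F.coeff k = 0 := by
      intro k
      refine ih (F.coeff k) (fun j => ?_) (fun s => ?_)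
      · exact (MvPolynomial.degreeOf_coeff_finSuccEquiv P j k).trans (hdeg j.succ)
      · -- the univariate slice at `s`
        have hslice : Polynomial.map (MvPolynomial.eval fun i => x (s i)) F = 0 := by
          refine poly_eq_zero_of_unitDiff x hx _ ?_ fun j => ?_
          · exact (Polynomial.natDegree_map_le).trans hFdeg
          · rw [hF, ← MvPolynomial.eval_eq_eval_mv_eval']
            have hpt : (Fin.cons (x j) (fun i => x (s i)) : Fin (d + 1) → A) =
                fun i => x ((Fin.cons j s : Fin (d + 1) → Fin (N + 1)) i) := by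
              funext i
              refine Fin.cases ?_ (fun i' => ?_) i <;> simp
            rw [hpt]
            exact hroot (Fin.cons j s)
        have := congrArg (fun p => Polynomial.coeff p k) hslice
        simpa [Polynomial.coeff_map] using this
    have hF0 : F = 0 := Polynomial.ext fun k => by simpa using hcoeff k
    exact (MvPolynomial.finSuccEquiv A d).injective (by rw [← hF, hF0, map_zero])

/-- Two polynomials of degree `≤ N` in each variable agreeing on the grid are equal. -/
theorem mvPoly_eq_of_unitDiff {N : ℕ} (x : Fin (N + 1) → A) (hx : UnitDiff x)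
    {d : ℕ} (P Q : MvPolynomial (Fin d) A) (hP : ∀ i, P.degreeOf i ≤ N)
    (hQ : ∀ i, Q.degreeOf i ≤ N)
    (h : ∀ s : Fin d → Fin (N + 1),
      MvPolynomial.eval (fun i => x (s i)) P = MvPolynomial.eval (fun i => x (s i)) Q) :
    P = Q := by
  rw [← sub_eq_zero]
  refine mvPoly_eq_zero_of_unitDiff x hx _ (fun i => ?_) fun s => ?_
  · exact (MvPolynomial.degreeOf_sub_le i P Q).trans (max_le (hP i) (hQ i))
  · rw [map_sub, h s, sub_self]

/-- A local ring with infinite residue field has arbitrarily many nodes with unit differences. -/
theorem exists_unitDiff [IsLocalRing A] [Infinite (IsLocalRing.ResidueField A)] (N : ℕ) :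
    ∃ x : Fin (N + 1) → A, UnitDiff x := by
  obtain ⟨e⟩ : Nonempty (Fin (N + 1) ↪ IsLocalRing.ResidueField A) :=
    ⟨(Fin.valEmbedding).trans (Infinite.natEmbedding _)⟩
  choose x hx using fun j => IsLocalRing.residue_surjective (R := A) (e j)
  refine ⟨x, fun i j hij => ?_⟩
  have hne : IsLocalRing.residue A (x i - x j) ≠ 0 := by
    rw [map_sub, hx, hx, sub_ne_zero]
    exact fun h => hij (e.injective h)
  by_contra hu
  exact hne ((IsLocalRing.residue_eq_zero_iff _).mpr ((IsLocalRing.mem_maximalIdeal _).mpr hu))

end Fermat.Agent.GF.Interp.Grid
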