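/-
GATE-F / S40, node GF-INTERP part 2 (helper17): helper38's INTERP lemma (board 5408), FUNCTION
form.  A function `μ` on `𝔪^d` which is represented by SOME polynomial on every finite subset of
`𝔪^d` (the shape AddSpec gives for the coordinates of the group law) is, after scaling the
argument by `π ∈ 𝔪` and reducing modulo an ideal `I ∋ π^(N+1)`, given by ONE polynomial of total
degree `≤ N` over `A ⧸ I` — and this polynomial is unique (grid unisolvence, `GF/Interp/Grid`).

* `scale π` : the substitution `T_i ↦ π T_i`; `eval_scale`, `coeff_scale`;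
* `totalDegree_map_scale_le` : `(scale π P) mod I` has total degree `≤ N` when `π^(N+1) ∈ I`;
* `existsUnique_poly_mod` : THE lemma;
* `poly_mod_compat` : compatibility when `I ≤ I'`.

Mathlib + GF/Interp/Grid only.
-/
import Mathlib
import Fermat.Agent.GF.Interp.Grid

set_option autoImplicit false

namespace Fermat.Agent.GF.Interp.Uniform

open MvPolynomial Fermat.Agent.GF.Interp.Grid

variable {A : Type*} [CommRing A] {d : ℕ}

/-- The substitution `T_i ↦ π T_i`. -/
noncomputable def scale (π : A) : MvPolynomial (Fin d) A →ₐ[A] MvPolynomial (Fin d) A :=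
  aeval fun i => C π * X i

theorem eval_scale (π : A) (P : MvPolynomial (Fin d) A) (z : Fin d → A) :
    eval z (scale π P) = eval (π • z) P := by
  have h : (eval z).comp (scale (d := d) π).toRingHom = eval (π • z) := by
    apply MvPolynomial.ringHom_ext
    · intro r
      simp [scale]
    · intro i
      simp [scale]
  exact RingHom.congr_fun h P

theorem scale_monomial (π : A) (u : Fin d →₀ ℕ) (a : A) :
    scale π (monomial u a) = monomial u (π ^ u.degree * a) := by
  rw [scale, aeval_monomial, monomial_eq, Finsupp.degree_apply]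
  simp only [Finsupp.prod, mul_pow, Finset.prod_mul_distrib, ← map_pow, ← map_prod]
  rw [Finset.prod_pow_eq_pow_sum]
  simp only [algebraMap_eq, map_mul]
  ring

theorem coeff_scale (π : A) (P : MvPolynomial (Fin d) A) (m : Fin d →₀ ℕ) :
    coeff m (scale π P) = π ^ m.degree * coeff m P := by
  induction P using MvPolynomial.induction_on' with
  | monomial u a =>
    rw [scale_monomial]
    classical
    simp only [coeff_monomial]
    split_ifs with h
    · rw [h]
    · rw [mul_zero]
  | add p q hp hq => rw [map_add, coeff_add, coeff_add, hp, hq, mul_add]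

/-- Modulo an ideal containing `π^(N+1)`, a scaled polynomial has total degree `≤ N`. -/
theorem coeff_map_scale_eq_zero {N : ℕ} (I : Ideal A) (π : A) (hπ : π ^ (N + 1) ∈ I)
    (P : MvPolynomial (Fin d) A) (m : Fin d →₀ ℕ) (hm : N < m.degree) :
    coeff m (map (Ideal.Quotient.mk I) (scale π P)) = 0 := by
  rw [coeff_map, coeff_scale, Ideal.Quotient.eq_zero_iff_mem]
  refine Ideal.mul_mem_right _ _ ?_
  obtain ⟨k, hk⟩ := Nat.exists_eq_add_of_le (Nat.succ_le_of_lt hm)
  rw [hk, pow_add]
  exact Ideal.mul_mem_right _ _ hπ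

theorem degreeOf_map_scale_le {N : ℕ} (I : Ideal A) (π : A) (hπ : π ^ (N + 1) ∈ I)
    (P : MvPolynomial (Fin d) A) (i : Fin d) :
    degreeOf i (map (Ideal.Quotient.mk I) (scale π P)) ≤ N := by
  rw [degreeOf_le_iff]
  intro m hm
  by_contra hlt
  rw [not_le] at hlt
  have hdeg : N < m.degree := lt_of_lt_of_le hlt (Finsupp.le_degree i m)
  exact (mem_support_iff.mp hm) (coeff_map_scale_eq_zero I π hπ P m hdeg)

theorem totalDegree_map_scale_le {N : ℕ} (I : Ideal A) (π : A) (hπ : π ^ (N + 1) ∈ I)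
    (P : MvPolynomial (Fin d) A) :
    totalDegree (map (Ideal.Quotient.mk I) (scale π P)) ≤ N := by
  rw [totalDegree, Finset.sup_le_iff]
  intro m hm
  by_contra hlt
  rw [not_le] at hlt
  have hdeg : N < m.degree := by
    rwa [Finsupp.degree_apply]
  exact (mem_support_iff.mp hm) (coeff_map_scale_eq_zero I π hπ P m hdeg)

theorem eval_map_scale (I : Ideal A) (π : A) (P : MvPolynomial (Fin d) A) (z : Fin d → A) :
    eval (fun i => Ideal.Quotient.mk I (z i)) (map (Ideal.Quotient.mk I) (scale π P)) =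
      Ideal.Quotient.mk I (eval (π • z) P) := by
  rw [← eval_scale, eval_map, eval₂_comp]
  rfl

/-- The finite-set polynomiality hypothesis (AddSpec shape): on every finite subset of `𝔪^d`
the function `μ` is represented by a polynomial over `A`. -/
def FinPoly (𝔪 : Ideal A) (μ : (Fin d → A) → A) : Prop :=
  ∀ Z : Finset (Fin d → A), (∀ z ∈ Z, ∀ i, z i ∈ 𝔪) →
    ∃ P : MvPolynomial (Fin d) A, ∀ z ∈ Z, μ z = eval z P

/-- **INTERP.**  If `μ` is polynomial on every finite subset of `𝔪^d`, `π ∈ 𝔪`, `π^(N+1) ∈ I`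
and `A` has `N + 1` nodes with unit differences, then `z' ↦ μ (π • z') mod I` is given by a
unique polynomial of degree `≤ N` in each variable over `A ⧸ I` (it even has total degree
`≤ N`). -/
theorem existsUnique_poly_mod {N : ℕ} (𝔪 I : Ideal A) (π : A) (hπ𝔪 : π ∈ 𝔪)
    (hπ : π ^ (N + 1) ∈ I) (x : Fin (N + 1) → A) (hx : UnitDiff x)
    (μ : (Fin d → A) → A) (hμ : FinPoly 𝔪 μ) :
    ∃! Q : MvPolynomial (Fin d) (A ⧸ I), (∀ i, Q.degreeOf i ≤ N) ∧
      ∀ z' : Fin d → A,
        Ideal.Quotient.mk I (μ (π • z')) = eval (fun i => Ideal.Quotient.mk I (z' i)) Q := by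
  classical
  have hx' : UnitDiff ((Ideal.Quotient.mk I) ∘ x) := hx.map _
  -- uniqueness from the grid
  have huniq : ∀ Q Q' : MvPolynomial (Fin d) (A ⧸ I), (∀ i, Q.degreeOf i ≤ N) →
      (∀ i, Q'.degreeOf i ≤ N) →
      (∀ s : Fin d → Fin (N + 1), eval (fun i => Ideal.Quotient.mk I (x (s i))) Q =
        eval (fun i => Ideal.Quotient.mk I (x (s i))) Q') → Q = Q' :=
    fun Q Q' hQ hQ' h => mvPoly_eq_of_unitDiff _ hx' Q Q' hQ hQ' h
  -- the grid inside `𝔪^d`
  let G : Finset (Fin d → A) :=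
    Finset.univ.image fun s : Fin d → Fin (N + 1) => π • fun i => x (s i)
  have hmem : ∀ (z' : Fin d → A) (i : Fin d), (π • z') i ∈ 𝔪 := fun z' i => by
    simpa using Ideal.mul_mem_right _ _ hπ𝔪
  have hG : ∀ z ∈ G, ∀ i, z i ∈ 𝔪 := by
    intro z hz i
    obtain ⟨s, -, rfl⟩ := Finset.mem_image.mp hz
    exact hmem _ i
  -- for every further point, a polynomial on `G ∪ {point}`
  have key : ∀ z' : Fin d → A, ∃ Q : MvPolynomial (Fin d) (A ⧸ I), (∀ i, Q.degreeOf i ≤ N) ∧
      (∀ s : Fin d → Fin (N + 1), eval (fun i => Ideal.Quotient.mk I (x (s i))) Q =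
        Ideal.Quotient.mk I (μ (π • fun i => x (s i)))) ∧
      Ideal.Quotient.mk I (μ (π • z')) = eval (fun i => Ideal.Quotient.mk I (z' i)) Q := by
    intro z'
    obtain ⟨P, hP⟩ := hμ (insert (π • z') G) (by
      intro z hz i
      rcases Finset.mem_insert.mp hz with rfl | hz
      · exact hmem _ i
      · exact hG z hz i)
    refine ⟨map (Ideal.Quotient.mk I) (scale π P), degreeOf_map_scale_le I π hπ P, fun s => ?_, ?_⟩
    · rw [eval_map_scale, ← hP _ (Finset.mem_insert_of_mem
        (Finset.mem_image.mpr ⟨s, Finset.mem_univ _, rfl⟩))]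
    · rw [eval_map_scale, ← hP _ (Finset.mem_insert_self _ _)]
  obtain ⟨Q₀, hQ₀deg, hQ₀grid, -⟩ := key 0
  refine ⟨Q₀, ⟨hQ₀deg, fun z' => ?_⟩, ?_⟩
  · obtain ⟨Q, hQdeg, hQgrid, hQz⟩ := key z'
    have : Q = Q₀ := huniq Q Q₀ hQdeg hQ₀deg fun s => by rw [hQgrid, hQ₀grid]
    rw [hQz, this]
  · rintro Q ⟨hQdeg, hQ⟩
    refine huniq Q Q₀ hQdeg hQ₀deg fun s => ?_
    rw [hQ₀grid, ← hQ]

end Fermat.Agent.GF.Interp.Uniform
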