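/-
GATE-F / S40, node GF-INTERP part 3 (helper17): compatibilities of the INTERP polynomial of
`GF/Interp/Uniform.lean`, all by grid uniqueness:

* `poly_mod_eq_of_grid` : a polynomial of degree `≤ N` in each variable over `A ⧸ I` is
  determined by the values it must take at the grid points `x ∘ s`;
* `map_poly_mod_eq` : BASE CHANGE along `φ : A →+* B` (answers helper5 5597 (2): for points over
  a bigger ring the INTERP polynomial is the image of the one over the small ring, so its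
  coefficients lie in the image of `A ⧸ I`); special case `φ = id`, `I ≤ I'`: `poly_mod_of_le`;
* `scale_poly_mod_eq` : changing `π` to `a * π` replaces `Q(T)` by `Q(a T)`.

Mathlib + GF/Interp/{Grid,Uniform} only.
-/
import Mathlib
import Fermat.Agent.GF.Interp.Uniform

set_option autoImplicit false

namespace Fermat.Agent.GF.Interp.Compat

open MvPolynomial Fermat.Agent.GF.Interp.Grid Fermat.Agent.GF.Interp.Uniform

variable {A : Type*} [CommRing A] {d N : ℕ}

theorem degreeOf_map_le {B : Type*} [CommRing B] (f : A →+* B) (P : MvPolynomial (Fin d) A)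
    (i : Fin d) : degreeOf i (map f P) ≤ degreeOf i P := by
  rw [degreeOf_le_iff]
  intro m hm
  exact (degreeOf_le_iff.mp le_rfl) m (support_map_subset f P hm)

theorem degreeOf_scale_le (c : A) (P : MvPolynomial (Fin d) A) (i : Fin d) :
    degreeOf i (scale c P) ≤ degreeOf i P := by
  rw [degreeOf_le_iff]
  intro m hm
  refine (degreeOf_le_iff.mp le_rfl) m ?_
  rw [mem_support_iff] at hm ⊢
  intro h0
  exact hm (by rw [coeff_scale, h0, mul_zero])

/-- Determination by the grid values. -/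
theorem poly_mod_eq_of_grid (I : Ideal A) (x : Fin (N + 1) → A) (hx : UnitDiff x)
    (Q Q' : MvPolynomial (Fin d) (A ⧸ I)) (hQ : ∀ i, Q.degreeOf i ≤ N)
    (hQ' : ∀ i, Q'.degreeOf i ≤ N)
    (h : ∀ s : Fin d → Fin (N + 1), eval (fun i => Ideal.Quotient.mk I (x (s i))) Q =
      eval (fun i => Ideal.Quotient.mk I (x (s i))) Q') : Q = Q' :=
  mvPoly_eq_of_unitDiff _ (hx.map (Ideal.Quotient.mk I)) Q Q' hQ hQ' h

/-- **Base change of the INTERP polynomial.** -/
theorem map_poly_mod_eq {B : Type*} [CommRing B] (φ : A →+* B) (I : Ideal A) (J : Ideal B)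
    (hIJ : I ≤ J.comap φ) (π : A) (x : Fin (N + 1) → A) (hx : UnitDiff x)
    (μA : (Fin d → A) → A) (μB : (Fin d → B) → B)
    (hμ : ∀ s : Fin d → Fin (N + 1),
      μB (φ π • fun i => φ (x (s i))) = φ (μA (π • fun i => x (s i))))
    (QA : MvPolynomial (Fin d) (A ⧸ I)) (hQA : ∀ i, QA.degreeOf i ≤ N)
    (hA : ∀ s : Fin d → Fin (N + 1), Ideal.Quotient.mk I (μA (π • fun i => x (s i))) =
      eval (fun i => Ideal.Quotient.mk I (x (s i))) QA)
    (QB : MvPolynomial (Fin d) (B ⧸ J)) (hQB : ∀ i, QB.degreeOf i ≤ N)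
    (hB : ∀ s : Fin d → Fin (N + 1), Ideal.Quotient.mk J (μB (φ π • fun i => φ (x (s i)))) =
      eval (fun i => Ideal.Quotient.mk J (φ (x (s i)))) QB) :
    QB = map (Ideal.quotientMap J φ hIJ) QA := by
  refine poly_mod_eq_of_grid J (φ ∘ x) (hx.map φ) QB _ hQB
    (fun i => (degreeOf_map_le _ QA i).trans (hQA i)) fun s => ?_
  simp only [Function.comp_apply]
  rw [← hB s, hμ s, eval_map, ← Ideal.quotientMap_mk (H := hIJ), hA s, eval₂_comp]
  congr 1

/-- Compatibility for `I ≤ I'`. -/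
theorem poly_mod_of_le (I I' : Ideal A) (hII' : I ≤ I') (π : A) (x : Fin (N + 1) → A)
    (hx : UnitDiff x) (μ : (Fin d → A) → A)
    (Q : MvPolynomial (Fin d) (A ⧸ I)) (hQ : ∀ i, Q.degreeOf i ≤ N)
    (h : ∀ s : Fin d → Fin (N + 1), Ideal.Quotient.mk I (μ (π • fun i => x (s i))) =
      eval (fun i => Ideal.Quotient.mk I (x (s i))) Q)
    (Q' : MvPolynomial (Fin d) (A ⧸ I')) (hQ' : ∀ i, Q'.degreeOf i ≤ N)
    (h' : ∀ s : Fin d → Fin (N + 1), Ideal.Quotient.mk I' (μ (π • fun i => x (s i))) =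
      eval (fun i => Ideal.Quotient.mk I' (x (s i))) Q') :
    Q' = map (Ideal.quotientMap I' (RingHom.id A) (by simpa using hII')) Q :=
  map_poly_mod_eq (RingHom.id A) I I' (by simpa using hII') π x hx μ μ (fun _ => rfl) Q hQ h Q' hQ'
    h'

/-- Changing the scaling factor: `π' = a * π` replaces `Q(T)` by `Q(a T)`. -/
theorem scale_poly_mod_eq (I : Ideal A) (π a : A) (x : Fin (N + 1) → A) (hx : UnitDiff x)
    (μ : (Fin d → A) → A)
    (Q : MvPolynomial (Fin d) (A ⧸ I)) (hQ : ∀ i, Q.degreeOf i ≤ N)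
    (h : ∀ z' : Fin d → A, Ideal.Quotient.mk I (μ (π • z')) =
      eval (fun i => Ideal.Quotient.mk I (z' i)) Q)
    (Q' : MvPolynomial (Fin d) (A ⧸ I)) (hQ' : ∀ i, Q'.degreeOf i ≤ N)
    (h' : ∀ s : Fin d → Fin (N + 1), Ideal.Quotient.mk I (μ ((a * π) • fun i => x (s i))) =
      eval (fun i => Ideal.Quotient.mk I (x (s i))) Q') :
    Q' = scale (Ideal.Quotient.mk I a) Q := by
  refine poly_mod_eq_of_grid I x hx Q' _ hQ' (fun i => (degreeOf_scale_le _ Q i).trans (hQ i))
    fun s => ?_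
  rw [← h' s, eval_scale]
  have := h (a • fun i => x (s i))
  rw [smul_smul, mul_comm] at this
  rw [this]
  congr 1

end Fermat.Agent.GF.Interp.Compat
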