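/-
GATE-F (S40), node INTERP (helper38 5408 (2)), layer (I1) (helper59): **grid unisolvence**.

`R` a commutative ring, `S : Fin (N + 1) → R` nodes with UNIT pairwise differences.  The grid
`{ (S (a 0), …, S (a (d − 1))) : a : Fin d → Fin (N + 1) }` is unisolvent for the polynomials of
degree `≤ N` in EACH variable:

* `eq_zero_of_eval_grid_eq_zero` : such a polynomial vanishing on the grid is `0`;
* `eq_of_eval_grid_eq`           : two such polynomials agreeing on the grid are equal;
* `lagrange`, `interp`, `eval_interp`, `degreeOf_interp_le` : the interpolation polynomial of an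
  arbitrary value function on the grid (tensor Lagrange basis; no determinants);
* `exists_nodes` : a local ring with infinite residue field has `N + 1` nodes with unit differences.

Mathlib only.
-/
import Mathlib

set_option autoImplicit false

namespace Fermat.Agent.GF.Interp.LagrangeGrid

open MvPolynomial

/-! ### one variable -/

section OneVar

variable {R : Type*} [CommRing R]

/-- a polynomial of degree `≤ N` vanishing at `N + 1` nodes with unit pairwise differences is `0`
(Vandermonde). -/
theorem poly_eq_zero_of_eval_eq_zero {N : ℕ} (S : Fin (N + 1) → R)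
    (hS : ∀ i j, i ≠ j → IsUnit (S i - S j)) (p : Polynomial R) (hdeg : p.natDegree ≤ N)
    (h0 : ∀ i, p.eval (S i) = 0) : p = 0 := by
  classical
  have hdet : IsUnit (Matrix.vandermonde S).det := by
    rw [Matrix.det_vandermonde]
    refine IsUnit.prod_univ_iff.2 fun i => IsUnit.prod_iff.2 fun j hj => ?_
    have hji : j ≠ i := by
      rw [Finset.mem_Ioi] at hj
      exact (ne_of_gt hj)
    exact hS j i hji
  have hunit : IsUnit (Matrix.vandermonde S) := (Matrix.isUnit_iff_isUnit_det _).2 hdet
  have hmul : (Matrix.vandermonde S).mulVec (fun j : Fin (N + 1) => p.coeff j) = 0 := by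
    funext i
    have h1 := Polynomial.eval_eq_sum_range' (p := p) (n := N + 1) (by omega) (S i)
    rw [h0 i, Finset.sum_range] at h1
    rw [Matrix.mulVec, dotProduct, Pi.zero_apply, h1]
    refine Finset.sum_congr rfl fun j _ => ?_
    rw [Matrix.vandermonde_apply, mul_comm]
  have hc : (fun j : Fin (N + 1) => p.coeff j) = 0 :=
    Matrix.mulVec_injective_of_isUnit hunit (by rw [hmul, Matrix.mulVec_zero])
  ext k
  rw [Polynomial.coeff_zero]
  by_cases hk : k ≤ N
  · exact congrFun hc ⟨k, by omega⟩
  · exact Polynomial.coeff_eq_zero_of_natDegree_lt (by omega)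

end OneVar

/-! ### several variables: uniqueness -/

section Unique

variable {R : Type*} [CommRing R]

/-- the grid point with index `a`. -/
def gridPt {N d : ℕ} (S : Fin (N + 1) → R) (a : Fin d → Fin (N + 1)) : Fin d → R :=
  fun i => S (a i)

omit [CommRing R] in
theorem gridPt_cons {N d : ℕ} (S : Fin (N + 1) → R) (k : Fin (N + 1)) (a : Fin d → Fin (N + 1)) :
    gridPt S (Fin.cons k a : Fin (d + 1) → Fin (N + 1)) = Fin.cons (S k) (gridPt S a) := by
  funext i
  refine Fin.cases ?_ (fun j => ?_) i
  · simp [gridPt]
  · simp [gridPt]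

/-- **grid unisolvence, uniqueness**: a polynomial of degree `≤ N` in each variable vanishing on
the grid is `0`. -/
theorem eq_zero_of_eval_grid_eq_zero {N : ℕ} (S : Fin (N + 1) → R)
    (hS : ∀ i j, i ≠ j → IsUnit (S i - S j)) :
    ∀ (d : ℕ) (P : MvPolynomial (Fin d) R), (∀ i, degreeOf i P ≤ N) →
      (∀ a : Fin d → Fin (N + 1), eval (gridPt S a) P = 0) → P = 0 := by
  intro d
  induction d with
  | zero =>
    intro P _ h0
    have h1 := h0 Fin.elim0
    have h2 := MvPolynomial.eq_C_of_isEmpty P
    rw [h2, eval_C] at h1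
    rw [h2, h1, C_0]
  | succ d ih =>
    intro P hdeg h0
    set f := finSuccEquiv R d P with hf
    -- every coefficient of `f` vanishes
    have hcoeff : ∀ k, f.coeff k = 0 := by
      intro k
      refine ih (f.coeff k) (fun j => ?_) (fun a => ?_)
      · exact (degreeOf_coeff_finSuccEquiv P j k).trans (hdeg j.succ)
      · -- the one-variable polynomial obtained by specialising the last `d` variables
        have hp : Polynomial.map (eval (gridPt S a)) f = 0 := by
          refine poly_eq_zero_of_eval_eq_zero S hS _ ?_ fun k' => ?_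
          · refine (Polynomial.natDegree_map_le).trans ?_
            rw [hf, natDegree_finSuccEquiv]
            exact hdeg 0
          · have := h0 (Fin.cons k' a)
            rwa [gridPt_cons, eval_eq_eval_mv_eval'] at this
        have := congrArg (fun q => Polynomial.coeff q k) hp
        simpa [Polynomial.coeff_map] using this
    have hf0 : f = 0 := by
      ext k : 1
      rw [hcoeff k, Polynomial.coeff_zero]
    have : finSuccEquiv R d P = 0 := hf0
    exact (map_eq_zero_iff _ (finSuccEquiv R d).injective).1 this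

/-- two polynomials of degree `≤ N` in each variable agreeing on the grid are equal. -/
theorem eq_of_eval_grid_eq {N d : ℕ} (S : Fin (N + 1) → R)
    (hS : ∀ i j, i ≠ j → IsUnit (S i - S j)) (P Q : MvPolynomial (Fin d) R)
    (hP : ∀ i, degreeOf i P ≤ N) (hQ : ∀ i, degreeOf i Q ≤ N)
    (h : ∀ a : Fin d → Fin (N + 1), eval (gridPt S a) P = eval (gridPt S a) Q) : P = Q := by
  rw [← sub_eq_zero]
  refine eq_zero_of_eval_grid_eq_zero S hS d (P - Q) (fun i => ?_) (fun a => ?_)
  · exact (degreeOf_sub_le i P Q).trans (max_le (hP i) (hQ i))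
  · rw [map_sub, h a, sub_self]

end Unique

/-! ### several variables: existence (tensor Lagrange basis) -/

section Exist

variable {R : Type*} [CommRing R]

open Classical in
/-- the Lagrange numerator `∏_{j ≠ k} (X_i − S j)` in the variable `X_i`. -/
noncomputable def lagNum {N d : ℕ} (S : Fin (N + 1) → R) (i : Fin d) (k : Fin (N + 1)) :
    MvPolynomial (Fin d) R :=
  ∏ j ∈ Finset.univ.erase k, (X i - C (S j))

open Classical in
/-- the Lagrange denominator `∏_{j ≠ k} (S k − S j)`. -/
noncomputable def lagDen {N : ℕ} (S : Fin (N + 1) → R) (k : Fin (N + 1)) : R :=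
  ∏ j ∈ Finset.univ.erase k, (S k - S j)

theorem isUnit_lagDen {N : ℕ} (S : Fin (N + 1) → R) (hS : ∀ i j, i ≠ j → IsUnit (S i - S j))
    (k : Fin (N + 1)) : IsUnit (lagDen S k) := by
  classical
  refine IsUnit.prod_iff.2 fun j hj => hS k j ?_
  exact (Finset.ne_of_mem_erase hj).symm

theorem eval_lagNum {N d : ℕ} (S : Fin (N + 1) → R) (i : Fin d) (k : Fin (N + 1)) (z : Fin d → R) :
    eval z (lagNum S i k) = ∏ j ∈ Finset.univ.erase k, (z i - S j) := by
  classical
  simp [lagNum, map_prod]

theorem eval_lagNum_self {N d : ℕ} (S : Fin (N + 1) → R) (i : Fin d) (k : Fin (N + 1))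
    (z : Fin d → R) (hz : z i = S k) : eval z (lagNum S i k) = lagDen S k := by
  rw [eval_lagNum, hz, lagDen]

theorem eval_lagNum_ne {N d : ℕ} (S : Fin (N + 1) → R) (i : Fin d) {k l : Fin (N + 1)}
    (hkl : l ≠ k) (z : Fin d → R) (hz : z i = S l) : eval z (lagNum S i k) = 0 := by
  classical
  rw [eval_lagNum, hz]
  exact Finset.prod_eq_zero (Finset.mem_erase.2 ⟨hkl, Finset.mem_univ l⟩) (sub_self _)

theorem degreeOf_lagNum_le {N d : ℕ} (S : Fin (N + 1) → R) (i j : Fin d) (k : Fin (N + 1)) :
    degreeOf j (lagNum S i k) ≤ N := by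
  classical
  refine (degreeOf_prod_le j _ _).trans ?_
  have h1 : ∀ l ∈ Finset.univ.erase k, degreeOf j (X i - C (S l) : MvPolynomial (Fin d) R) ≤ 1 := by
    intro l _
    refine (degreeOf_sub_le j _ _).trans (max_le ?_ ?_)
    · by_cases hR : Nontrivial R
      · rw [degreeOf_X]
        split_ifs <;> omega
      · rw [not_nontrivial_iff_subsingleton] at hR
        have : (X i : MvPolynomial (Fin d) R) = 0 := Subsingleton.elim _ _
        rw [this, degreeOf_zero]
        omega
    · rw [degreeOf_C]
      omega
  refine (Finset.sum_le_card_nsmul _ _ 1 h1).trans ?_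
  rw [Finset.card_erase_of_mem (Finset.mem_univ k), Finset.card_univ, Fintype.card_fin]
  simp

theorem vars_lagNum_subset {N d : ℕ} (S : Fin (N + 1) → R) (i : Fin d) (k : Fin (N + 1)) :
    (lagNum S i k).vars ⊆ {i} := by
  classical
  rw [lagNum]
  refine (vars_prod _).trans (Finset.biUnion_subset.2 fun l _ => ?_)
  refine (vars_sub_subset _).trans ?_
  rw [vars_C, Finset.union_empty]
  by_cases hR : Nontrivial R
  · rw [vars_X]
  · rw [not_nontrivial_iff_subsingleton] at hR
    have : (X i : MvPolynomial (Fin d) R) = 0 := Subsingleton.elim _ _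
    rw [this, vars_0]
    exact Finset.empty_subset _

/-- **the interpolation polynomial** of the value function `v` on the grid. -/
noncomputable def interp {N d : ℕ} (S : Fin (N + 1) → R)
    (hS : ∀ i j, i ≠ j → IsUnit (S i - S j)) (v : (Fin d → Fin (N + 1)) → R) :
    MvPolynomial (Fin d) R :=
  ∑ a : Fin d → Fin (N + 1),
    C (v a * ∏ i, (((isUnit_lagDen S hS (a i)).unit⁻¹ : Rˣ) : R)) * ∏ i, lagNum S i (a i)

theorem eval_interp {N d : ℕ} (S : Fin (N + 1) → R) (hS : ∀ i j, i ≠ j → IsUnit (S i - S j))
    (v : (Fin d → Fin (N + 1)) → R) (b : Fin d → Fin (N + 1)) :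
    eval (gridPt S b) (interp S hS v) = v b := by
  classical
  rw [interp, map_sum, Finset.sum_eq_single b]
  · rw [map_mul, eval_C, map_prod]
    have h1 : ∀ i, eval (gridPt S b) (lagNum S i (b i)) = lagDen S (b i) := fun i =>
      eval_lagNum_self S i (b i) _ rfl
    simp only [h1]
    rw [mul_assoc, ← Finset.prod_mul_distrib]
    have h2 : ∀ i, (((isUnit_lagDen S hS (b i)).unit⁻¹ : Rˣ) : R) * lagDen S (b i) = 1 := by
      intro i
      exact IsUnit.val_inv_mul (isUnit_lagDen S hS (b i))
    simp only [h2, Finset.prod_const_one, mul_one]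
  · intro a _ hab
    obtain ⟨i, hi⟩ : ∃ i, a i ≠ b i := by
      by_contra hcon
      exact hab (funext fun i => by_contra fun h => hcon ⟨i, h⟩)
    rw [map_mul, map_prod]
    have h3 : eval (gridPt S b) (lagNum S i (a i)) = 0 :=
      eval_lagNum_ne S i (Ne.symm hi) _ rfl
    have hprod : ∏ i', eval (gridPt S b) (lagNum S i' (a i')) = 0 :=
      Finset.prod_eq_zero (Finset.mem_univ i) h3
    rw [hprod, mul_zero]
  · intro hb
    exact absurd (Finset.mem_univ b) hb

theorem degreeOf_interp_le {N d : ℕ} (S : Fin (N + 1) → R)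
    (hS : ∀ i j, i ≠ j → IsUnit (S i - S j)) (v : (Fin d → Fin (N + 1)) → R) (j : Fin d) :
    degreeOf j (interp S hS v) ≤ N := by
  classical
  refine (degreeOf_sum_le j _ _).trans (Finset.sup_le fun a _ => ?_)
  refine (degreeOf_C_mul_le _ j _).trans ?_
  refine (degreeOf_prod_le j _ _).trans ?_
  -- only the factor `i = j` contributes
  have h1 : ∀ i ∈ (Finset.univ : Finset (Fin d)), degreeOf j (lagNum S i (a i)) ≤
      if i = j then N else 0 := by
    intro i _
    split_ifs with hij
    · exact degreeOf_lagNum_le S i j (a i)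
    · -- `lagNum S i k` only involves the variable `X i`
      rw [degreeOf_le_iff]
      intro m hm
      by_contra hne0
      have hne : m j ≠ 0 := by omega
      have hvars : j ∈ (lagNum S i (a i)).vars := by
        rw [mem_vars_iff_mem_support]
        exact ⟨m, hm, Finsupp.mem_support_iff.2 hne⟩
      have := vars_lagNum_subset S i (a i) hvars
      rw [Finset.mem_singleton] at this
      exact hij this.symm
  refine (Finset.sum_le_sum h1).trans ?_
  rw [Finset.sum_ite_eq' Finset.univ j]
  simp

end Exist

/-! ### nodes in a local ring with infinite residue field -/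

section Nodes

variable {A : Type*} [CommRing A] [IsLocalRing A]

/-- a local ring with infinite residue field has `N + 1` nodes with unit pairwise differences. -/
theorem exists_nodes [Infinite (IsLocalRing.ResidueField A)] (N : ℕ) :
    ∃ S : Fin (N + 1) → A, ∀ i j, i ≠ j → IsUnit (S i - S j) := by
  classical
  let f : Fin (N + 1) ↪ IsLocalRing.ResidueField A :=
    (Fin.valEmbedding).trans (Infinite.natEmbedding _)
  choose S hS using fun i => IsLocalRing.residue_surjective (R := A) (f i)
  refine ⟨S, fun i j hij => ?_⟩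
  by_contra hnu
  have hmem : S i - S j ∈ IsLocalRing.maximalIdeal A :=
    (IsLocalRing.mem_maximalIdeal _).2 (mem_nonunits_iff.2 hnu)
  have h0 : IsLocalRing.residue A (S i - S j) = 0 :=
    (IsLocalRing.residue_eq_zero_iff _).2 hmem
  rw [map_sub, hS, hS, sub_eq_zero] at h0
  exact hij (f.injective h0)

end Nodes

end Fermat.Agent.GF.Interp.LagrangeGrid
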